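/-
S13 (reducible mod-`p` Frey representation ⇒ Galois-stable cofixed line): the interface statements
consumed by the final assembly `Lib/S13/Assembly.lean`.  Each is a closed `Prop`; work packages prove
them in their own files (`theorem s13_ifaceXxx : s13_IfaceXxx`).

Notation: `s13_V P` is the `p`-torsion of the Frey curve over `ℚ̄`, with its `ZMod p`-module and
Galois-module structures from the prelude.
-/
import Mathlib
import Fermat.Prelude.Def_FLTPrelim_FreyPackage
import Fermat.Prelude.Def_FLTPrelim_GaloisRep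
import Fermat.Prelude.Def_FLTPrelim_Ramification
import Fermat.Prelude.Def_FLTPrelim_CofixedLine

set_option autoImplicit false

namespace Fermat.Agent.Lib.S13

open WeierstrassCurve WeierstrassCurve.Affine WeierstrassCurve.Affine.Point

/-- The `p`-torsion of the Frey curve over `ℚ̄`. -/
abbrev s13_V (P : FreyPackage) : Type :=
  Submodule.torsionBy ℤ ((P.freyCurve)⁄(AlgebraicClosure ℚ)).Point P.p

/-- (A) `#E[p](ℚ̄) = p²`. -/
def s13_IfaceCard : Prop :=
  ∀ P : FreyPackage, Nat.card (s13_V P) = P.p ^ 2

/-- (B) Local analysis at `p`: for every place `A` of `ℚ̄` over `p` there is a subgroup `T` of `V`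
(the points of `V` in the kernel of reduction) such that inertia acts trivially on `V/T`, and
if `T = V` (supersingular type) then `V` has no proper nonzero Galois-stable submodule. -/
def s13_IfaceLocalP : Prop :=
  ∀ (P : FreyPackage) (A : ValuationSubring (AlgebraicClosure ℚ)), A.LiesOverPrime P.p →
    ∃ T : AddSubgroup (s13_V P),
      (∀ σ ∈ A.inertiaSubgroupIn ℚ, ∀ x : s13_V P, σ • x - x ∈ T) ∧
      (T = ⊤ → ∀ N : Submodule (ZMod P.p) (s13_V P), IsGaloisStable ℚ N → N = ⊥ ∨ N = ⊤)

/-- (C) Local analysis at `2`: the image of inertia at `2` in `Aut V` is killed by `p`. -/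
def s13_IfaceLocal2 : Prop :=
  ∀ (P : FreyPackage) (A : ValuationSubring (AlgebraicClosure ℚ)), A.LiesOverPrime 2 →
    ∀ σ ∈ A.inertiaSubgroupIn ℚ, ∀ x : s13_V P, σ ^ P.p • x = x

/-- (D) The Frey curve has no rational point of order `p`. -/
def s13_IfaceNoRatPt : Prop :=
  ∀ (P : FreyPackage) (x : s13_V P),
    (∀ σ : AlgebraicClosure ℚ ≃ₐ[ℚ] AlgebraicClosure ℚ, σ • x = x) → x = 0

/-- (E) Minkowski: a normal subgroup of `Gal(ℚ̄/ℚ)` containing the fixing subgroup of a finite
extension and, for every prime `q`, the inertia subgroup of some place over `q`, is everything. -/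
def s13_IfaceMinkowski : Prop :=
  ∀ H : Subgroup (AlgebraicClosure ℚ ≃ₐ[ℚ] AlgebraicClosure ℚ), H.Normal →
    (∃ L : IntermediateField ℚ (AlgebraicClosure ℚ), FiniteDimensional ℚ L ∧
      L.fixingSubgroup ≤ H) →
    (∀ q : ℕ, q.Prime → ∃ A : ValuationSubring (AlgebraicClosure ℚ),
      A.LiesOverPrime q ∧ A.inertiaSubgroupIn ℚ ≤ H) →
    H = ⊤

end Fermat.Agent.Lib.S13
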