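/-
S13 moonshot: the product formula interface (PF) consumed by the local analysis at `p`
(`Lib/S13/LocE…`): for the Legendre-type model `Y² = X (X − δ) (X − ε)` over an algebraically
closed field of characteristic `0` and an odd `n`, if `S` is the finite set of abscissae of the
nonzero `n`-torsion points then `(n² · (∏_{ξ ∈ S} ξ)²)² = (δ ε)^(n² − 1)`.

(With `b_n = ψ_n² = n² · (∏_{ξ ∈ S} (X − ξ))²` this says `b_n(0)² = (δ ε)^(n² − 1)`, which follows
from the translation by the `2`-torsion point `(0, 0)`: `r_n(δ ε / X) · r_n(X) = δ ε`.)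
-/
import Mathlib
import Fermat.Agent.Lib.Frey.Defs

set_option autoImplicit false

namespace Fermat.Agent.Lib.S13

open WeierstrassCurve
open Fermat.Agent.Lib.Frey

/-- (PF) the product formula for the abscissae of the nonzero `n`-torsion points, `n` odd. -/
def s13_IfacePF : Prop :=
  ∀ {K : Type} [Field K] [DecidableEq K] [IsAlgClosed K] [CharZero K] (δ ε : K),
    δ ≠ 0 → ε ≠ 0 → δ ≠ ε → ∀ (n : ℕ), Odd n → ∀ (S : Finset K),
    (∀ ξ : K, ξ ∈ S ↔ ∃ (y : K) (h : (fl_curve δ ε).toAffine.Nonsingular ξ y),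
      n • (Affine.Point.some ξ y h) = 0) →
    ((n : K) ^ 2 * (∏ ξ ∈ S, ξ) ^ 2) ^ 2 = (δ * ε) ^ (n ^ 2 - 1)

end Fermat.Agent.Lib.S13
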