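/-
M1 / S13, local analysis at `p`, part (i), frozen vocabulary.

For a Frey package `P`, a valuation subring `A` of `ℚ̄` over `p = P.p` and the `ℚ`-valued valuation
`v = ford_vQ A` (`v p = 1`):  `cfh_T P A hA`, the kernel of reduction inside
`V = E[p](ℚ̄)` (`x = 0` or `v (X x) < 0` on the Frey model), is a `ZMod p`-submodule of `V`,
stable under the decomposition group of `A`, and the inertia group of `A` acts trivially on
`V ⧸ T`.
-/
import Mathlib
import Fermat.Agent.Lib.S13.LocC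
import Fermat.Agent.Lib.Frey.OrdInertia
import Fermat.Prelude.Def_FLTPrelim_FreyPackage
import Fermat.Prelude.Def_FLTPrelim_GaloisRep
import Fermat.Prelude.Def_FLTPrelim_Ramification

set_option autoImplicit false

namespace Fermat.Agent.Lib.S13

open WeierstrassCurve WeierstrassCurve.Affine WeierstrassCurve.Affine.Point
open Fermat.Agent.Lib.Frey

local notation "Qb" => AlgebraicClosure ℚ

/-- The base-changed Frey curve is fixed by every `ℚ`-automorphism. -/
theorem cfh_frey_map (P : FreyPackage) (σ : Qb ≃ₐ[ℚ] Qb) :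
    (P.freyCurve.baseChange Qb).map ((σ : Qb ≃+* Qb) : Qb →+* Qb) = P.freyCurve.baseChange Qb := by
  ext <;> simp [WeierstrassCurve.baseChange, WeierstrassCurve.map]

/-- The Prelude's Galois action on points is `fab_sigma`. -/
theorem cfh_smul_eq_sigma (P : FreyPackage) (σ : Qb ≃ₐ[ℚ] Qb)
    (pt : (P.freyCurve⁄Qb).Point) :
    σ • pt = fab_sigma ((σ : Qb ≃+* Qb) : Qb →+* Qb) (P.freyCurve.baseChange Qb)
      (cfh_frey_map P σ) pt := by
  rcases pt with _ | ⟨X, Y, h⟩
  · change σ • (0 : (P.freyCurve⁄Qb).Point) = fab_sigma _ _ _ 0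
    rw [_root_.map_zero]
    rfl
  · rw [fab_sigma_some]
    rfl

section main

variable (P : FreyPackage) (A : ValuationSubring Qb) (hA : A.LiesOverPrime P.p)

/-- The `ℚ`-valued valuation attached to `A` over `p = P.p`, normalised by `v p = 1`. -/
noncomputable def cfh_vp : AddValuation Qb (WithTop ℚ) := ford_vQ A P.pp hA

theorem cfh_vp_p : cfh_vp P A hA (P.p : Qb) = 1 := ford_vQ_q P.pp hA

theorem cfh_vp_int (z : ℤ) : 0 ≤ cfh_vp P A hA (z : Qb) := ford_vQ_intCast_nonneg P.pp hA z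

theorem cfh_vp_p_pos : 0 < cfh_vp P A hA (P.p : Qb) := by
  rw [cfh_vp_p]; exact zero_lt_one

theorem cfh_vp_two : cfh_vp P A hA (2 : Qb) = 0 :=
  fq_v_two _ P.pp (cfh_vp_int P A hA) (cfh_vp_p_pos P A hA) (by have := P.hp5; omega)

/-- `E₁` is a subgroup of the points of the Frey curve over `ℚ̄` (at `p`). -/
theorem cfh_frey_E1Sub_vp : cfh_E1Sub (cfh_vp P A hA) (P.freyCurve.baseChange Qb) :=
  cfh_frey_E1Sub _ (cfh_vp_int P A hA) P (cfh_vp_two P A hA)

/-- The kernel of reduction inside `E[p](ℚ̄)`, as an additive subgroup. -/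
noncomputable def cfh_T₀ :
    AddSubgroup (Submodule.torsionBy ℤ (P.freyCurve⁄Qb).Point P.p) where
  carrier := {x | fl_InE1 (cfh_vp P A hA) (x : (P.freyCurve⁄Qb).Point)}
  zero_mem' := Or.inl rfl
  add_mem' := by
    intro x y hx hy
    have h0 := cfh_frey_E1Sub_vp P A hA 0 _ (Or.inl rfl) hy
    have := cfh_frey_E1Sub_vp P A hA _ _ hx h0
    rw [zero_sub, sub_neg_eq_add] at this
    exact this
  neg_mem' := by
    intro x hx
    have h0 := cfh_frey_E1Sub_vp P A hA 0 _ (Or.inl rfl) hx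
    rw [zero_sub] at h0
    exact h0

/-- The kernel of reduction inside `V = E[p](ℚ̄)`, as a `ZMod p`-submodule. -/
noncomputable def cfh_T :
    Submodule (ZMod P.p) (Submodule.torsionBy ℤ (P.freyCurve⁄Qb).Point P.p) :=
  AddSubgroup.toZModSubmodule P.p (cfh_T₀ P A hA)

theorem cfh_mem_T_iff (x : Submodule.torsionBy ℤ (P.freyCurve⁄Qb).Point P.p) :
    x ∈ cfh_T P A hA ↔ fl_InE1 (cfh_vp P A hA) (x : (P.freyCurve⁄Qb).Point) :=
  Iff.rfl

/-- Coordinates of the underlying point of `σ • x`. -/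
theorem cfh_coe_smul (σ : Qb ≃ₐ[ℚ] Qb) (x : Submodule.torsionBy ℤ (P.freyCurve⁄Qb).Point P.p) :
    ((σ • x : Submodule.torsionBy ℤ (P.freyCurve⁄Qb).Point P.p) : (P.freyCurve⁄Qb).Point) =
      σ • (x : (P.freyCurve⁄Qb).Point) := rfl

/-- **(i), stability**: `T` is stable under the decomposition group of `A`. -/
theorem cfh_T_stable (σ : Qb ≃ₐ[ℚ] Qb) (hσ : σ ∈ A.decompositionSubgroup ℚ)
    (x : Submodule.torsionBy ℤ (P.freyCurve⁄Qb).Point P.p) (hx : x ∈ cfh_T P A hA) :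
    σ • x ∈ cfh_T P A hA := by
  rw [cfh_mem_T_iff] at hx ⊢
  rw [cfh_coe_smul]
  rcases hx with h0 | ⟨X, Y, h, hxy, hX⟩
  · left
    rw [h0]; rfl
  · right
    rw [hxy]
    refine ⟨σ X, σ Y, _, rfl, ?_⟩
    have := ford_vQ_decomposition P.pp hA σ hσ X
    rw [cfh_vp, this]
    exact hX

/-- **(i), quotient**: the inertia group of `A` acts trivially on `V ⧸ T`. -/
theorem cfh_T_quot (σ : Qb ≃ₐ[ℚ] Qb) (hσ : σ ∈ A.inertiaSubgroupIn ℚ)
    (x : Submodule.torsionBy ℤ (P.freyCurve⁄Qb).Point P.p) :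
    σ • x - x ∈ cfh_T P A hA := by
  rw [cfh_mem_T_iff]
  obtain ⟨hσv, hσm⟩ := ford_vQ_inertia P.pp hA σ hσ
  have hx : P.p • (x : (P.freyCurve⁄Qb).Point) = 0 := by
    have := (Submodule.mem_torsionBy_iff _ _).mp x.2
    rwa [natCast_zsmul] at this
  have key := cfh_frey_quot (cfh_vp P A hA) (σ : Qb ≃+* Qb) hσv hσm (cfh_vp_int P A hA) P
    (cfh_vp_p_pos P A hA) (cfh_frey_map P σ) (x : (P.freyCurve⁄Qb).Point) hx
  rw [← cfh_smul_eq_sigma] at key
  exact key

end main

end Fermat.Agent.Lib.S13
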