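/-
M1 / S13, local analysis at `p`, part (i), abstract layer.

For the Legendre-type model `Y² = X (X − δ) (X − ε)` over a field with a `ℚ`-valued valuation `v`
(`v 2 = 0`, NO hypothesis on `v p`) and an automorphism `σ` preserving `v`, trivial on residues and
fixing `δ`, `ε`:  `σ x − x ∈ E₁` (kernel of reduction)
* for EVERY point `x`, in the good-reduction case (`δ`, `ε`, `δ − ε` units);
* for every `p`-torsion point `x`, in the multiplicative case (`v δ = m > 0`), given a `σ`-fixed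
  point `P₀` with `v (X P₀) = 2m/p`.
These are the first halves of `fab_main_good` / `fab_fixed_of_sub_inE0` (Lib/Frey), which do not
use that `E₁` has no `p`-torsion.
-/
import Mathlib
import Fermat.Agent.Lib.Frey.FqFinal

set_option autoImplicit false

namespace Fermat.Agent.Lib.S13

open WeierstrassCurve WeierstrassCurve.Affine WeierstrassCurve.Affine.Point
open Fermat.Agent.Lib.Frey

variable {K : Type*} [Field K] [DecidableEq K] (v : AddValuation K (WithTop ℚ))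

/-- `E₁` is closed under subtraction on the Legendre-type model with integral `δ`, `ε`. -/
theorem cfh_E1_sub {δ ε : K} (hδ : 0 ≤ v δ) (hε : 0 ≤ v ε)
    {P Q : (fl_curve δ ε).toAffine.Point} (hP : fl_InE1 v P) (hQ : fl_InE1 v Q) :
    fl_InE1 v (P - Q) :=
  fab_L2_sub_leg v hδ hε hP hQ

omit [DecidableEq K] in
/-- `E₁` contains `0`. -/
theorem cfh_E1_zero {W : WeierstrassCurve K} : fl_InE1 v (0 : W.toAffine.Point) := Or.inl rfl

/-- `E₁` is closed under addition on the Legendre-type model with integral `δ`, `ε`. -/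
theorem cfh_E1_add {δ ε : K} (hδ : 0 ≤ v δ) (hε : 0 ≤ v ε)
    {P Q : (fl_curve δ ε).toAffine.Point} (hP : fl_InE1 v P) (hQ : fl_InE1 v Q) :
    fl_InE1 v (P + Q) := by
  have h0 : fl_InE1 v (0 - Q) := cfh_E1_sub v hδ hε (cfh_E1_zero v) hQ
  have := cfh_E1_sub v hδ hε hP h0
  rwa [zero_sub, sub_neg_eq_add] at this

/-- **Good reduction.** `σ x − x ∈ E₁` for every point `x`. -/
theorem cfh_sub_mem_E1_good (σ : K →+* K) (hσv : ∀ a, v (σ a) = v a)
    (hσI : ∀ a, 0 ≤ v a → 0 < v (σ a - a)) (δ ε : K)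
    (hW : (fl_curve δ ε).map σ = fl_curve δ ε)
    (hδ : v δ = 0) (hε : v ε = 0) (hδε : v (δ - ε) = 0) (h2 : v (2 : K) = 0)
    (x : (fl_curve δ ε).toAffine.Point) :
    fl_InE1 v (fab_sigma σ (fl_curve δ ε) hW x - x) := by
  rcases x with _ | ⟨X, Y, h⟩
  · change fl_InE1 v (fab_sigma σ (fl_curve δ ε) hW 0 - 0)
    rw [_root_.map_zero, sub_zero]
    exact cfh_E1_zero v
  · rcases lt_or_ge (v X) 0 with hX | hX
    · have h1 : fl_InE1 v (Point.some X Y h) := Or.inr ⟨X, Y, h, rfl, hX⟩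
      exact cfh_E1_sub v hδ.ge hε.ge (fab_sigma_mem_E1 hW hσv h1) h1
    · obtain ⟨hb, hns⟩ := fab_ns_good v hδ hε hδε h hX
      exact fab_sigma_sub_mem_E1_of_integral hW hσv hσI (fab_L1_leg v hδ.ge hε.ge h2) h hX hb hns

/-- **Multiplicative reduction.** `σ x − x ∈ E₁` for every `p`-torsion point `x`, given a
`σ`-fixed point of level `2m/p`. -/
theorem cfh_sub_mem_E1_mult (σ : K →+* K) (hσv : ∀ a, v (σ a) = v a)
    (hσI : ∀ a, 0 ≤ v a → 0 < v (σ a - a)) (δ ε : K)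
    (hW : (fl_curve δ ε).map σ = fl_curve δ ε) (m : ℚ) (hm : 0 < m)
    (hδ : v δ = (m : WithTop ℚ)) (hε : v ε = 0) (h2 : v (2 : K) = 0) (p : ℕ) (hp : 2 < p)
    (X₀ Y₀ : K) (h₀ : (fl_curve δ ε).toAffine.Nonsingular X₀ Y₀) (hX₀ : σ X₀ = X₀)
    (hY₀ : σ Y₀ = Y₀) (hvX₀ : v X₀ = ((2 * m / p : ℚ) : WithTop ℚ))
    (x : (fl_curve δ ε).toAffine.Point) (hx : p • x = 0) :
    fl_InE1 v (fab_sigma σ (fl_curve δ ε) hW x - x) := by
  have hδpos : 0 < v δ := by rw [hδ]; exact_mod_cast hm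
  have hδ0 : (0 : WithTop ℚ) ≤ v δ := hδpos.le
  set P₀ : (fl_curve δ ε).toAffine.Point := Point.some X₀ Y₀ h₀ with hP₀def
  obtain ⟨j, hj⟩ := fu_exists_sub_inE0 v δ ε m hδ hm hε h2 p hp x P₀ hx X₀ Y₀ h₀ rfl hvX₀
  have hP₀ : fab_sigma σ (fl_curve δ ε) hW P₀ = P₀ := fab_sigma_eq_of_coords hW hX₀ hY₀
  set s := fab_sigma σ (fl_curve δ ε) hW with hs
  have hD : s x - x = s (x - j • P₀) - (x - j • P₀) := by
    rw [map_sub, map_zsmul, hP₀]; abel
  rw [hD]
  rcases hj with h0 | ⟨a, b, h, hab, ha⟩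
  · rw [h0, _root_.map_zero, sub_zero]; exact cfh_E1_zero v
  · rw [hab]
    rcases lt_or_eq_of_le ha with ha' | ha'
    · have h1 : fl_InE1 v (Point.some a b h) := Or.inr ⟨a, b, h, rfl, ha'⟩
      exact cfh_E1_sub v hδ0 hε.ge (fab_sigma_mem_E1 hW hσv h1) h1
    · obtain ⟨hb, hns'⟩ := fab_ns_mult v hδpos hε h ha'
      exact fab_sigma_sub_mem_E1_of_integral hW hσv hσI (fab_L1_leg v hδ0 hε.ge h2) h ha'.ge hb
        hns'

end Fermat.Agent.Lib.S13
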