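/-
M1 / S13, local analysis at `p`, part (i), transfer layer: the property
"`σ x − x ∈ E₁` for every `n`-torsion point `x`" and "`E₁` is a subgroup" are transported along
changes of variables with `v u = 0`, `0 ≤ v r` that are fixed by `σ`.
-/
import Mathlib
import Fermat.Agent.Lib.S13.LocA
import Fermat.Agent.Lib.Frey.VarChangeMap

set_option autoImplicit false

namespace Fermat.Agent.Lib.S13

open WeierstrassCurve WeierstrassCurve.Affine WeierstrassCurve.Affine.Point
open Fermat.Agent.Lib.Frey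

variable {K : Type*} [Field K] (v : AddValuation K (WithTop ℚ))

/-- Membership of an affine point in `E₁`. -/
theorem cfh_inE1_some_iff {W : WeierstrassCurve K} {x y : K} (h : W.toAffine.Nonsingular x y) :
    fl_InE1 v (Point.some x y h) ↔ v x < 0 := by
  constructor
  · rintro (h0 | ⟨x', y', h', he, hx⟩)
    · exact absurd h0 (by intro h4; cases h4)
    · rw [Point.some.injEq] at he
      rw [he.1]; exact hx
  · intro hx
    exact Or.inr ⟨x, y, h, rfl, hx⟩

/-- `v (u² x + r) < 0 ↔ v x < 0` for a unit `u` and an integral `r`. -/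
theorem cfh_v_fvcX (C : VariableChange K) (hu : v (C.u : K) = 0) (hr : 0 ≤ v C.r) (x : K) :
    v (fvc_X C x) < 0 ↔ v x < 0 := by
  unfold fvc_X
  have hu2 : v ((C.u : K) ^ 2 * x) = v x := by
    rw [v.map_mul, v.map_pow, hu, smul_zero, zero_add]
  constructor
  · intro h
    by_contra hx
    rw [not_lt] at hx
    have : 0 ≤ v ((C.u : K) ^ 2 * x + C.r) := v.map_le_add (by rw [hu2]; exact hx) hr
    exact absurd h (not_lt.mpr this)
  · intro h
    have hlt : v ((C.u : K) ^ 2 * x) < v C.r := by rw [hu2]; exact lt_of_lt_of_le h hr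
    rw [v.map_add_eq_of_lt_left hlt, hu2]
    exact h

variable [DecidableEq K]

/-- The change of variables preserves `E₁` (unit `u`, integral `r`). -/
theorem cfh_equiv_inE1 (W W' : WeierstrassCurve K) (C : VariableChange K) (hC : C • W = W')
    (hu : v (C.u : K) = 0) (hr : 0 ≤ v C.r) (Q : W'.toAffine.Point) :
    fl_InE1 v (fvc_pointEquivOfEq W W' C hC Q) ↔ fl_InE1 v Q := by
  rcases Q with _ | ⟨x, y, h⟩
  · change fl_InE1 v (fvc_pointEquivOfEq W W' C hC 0) ↔ fl_InE1 v (0 : W'.toAffine.Point)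
    rw [fvc_pointEquivOfEq_zero]
    exact ⟨fun _ => Or.inl rfl, fun _ => Or.inl rfl⟩
  · rw [fvc_pointEquivOfEq_some, cfh_inE1_some_iff, cfh_inE1_some_iff]
    exact cfh_v_fvcX v C hu hr x

/-- The change of variables commutes with `σ` when `σ` fixes its parameters. -/
theorem cfh_equiv_sigma (W W' : WeierstrassCurve K) (C : VariableChange K) (hC : C • W = W')
    (σ : K →+* K) (hW : W.map σ = W) (hW' : W'.map σ = W') (hu : σ (C.u : K) = C.u)
    (hr : σ C.r = C.r) (hs : σ C.s = C.s) (ht : σ C.t = C.t) (Q : W'.toAffine.Point) :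
    fvc_pointEquivOfEq W W' C hC (fab_sigma σ W' hW' Q) =
      fab_sigma σ W hW (fvc_pointEquivOfEq W W' C hC Q) := by
  rcases Q with _ | ⟨x, y, h⟩
  · change fvc_pointEquivOfEq W W' C hC (fab_sigma σ W' hW' 0) =
      fab_sigma σ W hW (fvc_pointEquivOfEq W W' C hC 0)
    rw [_root_.map_zero, _root_.map_zero, _root_.map_zero]
  · rw [fab_sigma_some, fvc_pointEquivOfEq_some, fvc_pointEquivOfEq_some, fab_sigma_some]
    apply fvc_some_congr
    · unfold fvc_X
      rw [map_add, map_mul, map_pow, hu, hr]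
    · unfold fvc_Y
      rw [map_add, map_add, map_mul, map_mul, map_mul, map_pow, map_pow, hu, hs, ht]

/-- "`σ x − x ∈ E₁` for every `n`-torsion point `x` of `W`". -/
def cfh_Quot (σ : K →+* K) (n : ℕ) (W : WeierstrassCurve K) : Prop :=
  ∀ (hW : W.map σ = W) (x : W.toAffine.Point), n • x = 0 →
    fl_InE1 v (fab_sigma σ W hW x - x)

/-- "`E₁` is closed under subtraction on `W`". -/
def cfh_E1Sub (W : WeierstrassCurve K) : Prop :=
  ∀ P Q : W.toAffine.Point, fl_InE1 v P → fl_InE1 v Q → fl_InE1 v (P - Q)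

variable {v}

theorem cfh_Quot_of_eq {σ : K →+* K} {n : ℕ} {W W' : WeierstrassCurve K} (h : W = W')
    (H : cfh_Quot v σ n W') : cfh_Quot v σ n W := by
  subst h; exact H

theorem cfh_E1Sub_of_eq {W W' : WeierstrassCurve K} (h : W = W')
    (H : cfh_E1Sub v W') : cfh_E1Sub v W := by
  subst h; exact H

/-- Transfer of `cfh_Quot` along a `σ`-fixed change of variables with `v u = 0`, `0 ≤ v r`. -/
theorem cfh_Quot_transfer {σ : K →+* K} {n : ℕ} (W W' : WeierstrassCurve K)
    (C : VariableChange K) (hC : C • W = W') (hu : σ (C.u : K) = C.u) (hr : σ C.r = C.r)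
    (hs : σ C.s = C.s) (ht : σ C.t = C.t) (hvu : v (C.u : K) = 0) (hvr : 0 ≤ v C.r)
    (hW' : W'.map σ = W') (H : cfh_Quot v σ n W') : cfh_Quot v σ n W := by
  intro hW x hx
  set e := fvc_pointEquivOfEq W W' C hC with he
  have h1 : n • e.symm x = 0 := by rw [← map_nsmul, hx, _root_.map_zero]
  have h2 := H hW' (e.symm x) h1
  rw [← cfh_equiv_inE1 v W W' C hC hvu hvr, ← he, map_sub,
    he, cfh_equiv_sigma W W' C hC σ hW hW' hu hr hs ht, ← he, e.apply_symm_apply] at h2
  exact h2

/-- Transfer of `cfh_E1Sub` along a change of variables with `v u = 0`, `0 ≤ v r`. -/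
theorem cfh_E1Sub_transfer (W W' : WeierstrassCurve K) (C : VariableChange K) (hC : C • W = W')
    (hvu : v (C.u : K) = 0) (hvr : 0 ≤ v C.r) (H : cfh_E1Sub v W') : cfh_E1Sub v W := by
  intro P Q hP hQ
  set e := fvc_pointEquivOfEq W W' C hC with he
  have hP' : fl_InE1 v (e.symm P) := by
    rw [← cfh_equiv_inE1 v W W' C hC hvu hvr, ← he, e.apply_symm_apply]; exact hP
  have hQ' : fl_InE1 v (e.symm Q) := by
    rw [← cfh_equiv_inE1 v W W' C hC hvu hvr, ← he, e.apply_symm_apply]; exact hQ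
  have := H _ _ hP' hQ'
  rw [← cfh_equiv_inE1 v W W' C hC hvu hvr, ← he, map_sub, e.apply_symm_apply,
    e.apply_symm_apply] at this
  exact this

end Fermat.Agent.Lib.S13
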