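/-
M1 / S13, local analysis at `p`, part (i), arithmetic layer: for the Frey curve over an
algebraically closed field `K` of characteristic `0` with a `ℚ`-valued valuation `v` with
`v p > 0` (`p = P.p`), and an automorphism `σ` preserving `v` and trivial on residues:
`σ x − x ∈ E₁` for every `p`-torsion point `x`, and `E₁` is a subgroup — on the Legendre model
`Y² = X (X − a^p) (X + b^p)` and on the Frey model itself.
-/
import Mathlib
import Fermat.Agent.Lib.S13.LocB
import Fermat.Agent.Lib.Frey.FqMain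

set_option autoImplicit false

namespace Fermat.Agent.Lib.S13

open WeierstrassCurve WeierstrassCurve.Affine WeierstrassCurve.Affine.Point
open Fermat.Agent.Lib.Frey

section core

variable {K : Type} [Field K] [DecidableEq K] [IsAlgClosed K]

/-- The multiplicative case in abstract form: `δ = s t^p`, `s = ± 1`, `v t = β > 0`. -/
theorem cfh_mult_case (v : AddValuation K (WithTop ℚ)) (σ : K ≃+* K)
    (hσv : ∀ a : K, v (σ a) = v a) (hσm : ∀ a : K, 0 ≤ v a → 0 < v (σ a - a))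
    (h2 : v 2 = 0) {p : ℕ} (hp : 2 < p)
    (s t ε : K) (hs : s = 1 ∨ s = -1) (ht : σ t = t) (hε : σ ε = ε) {β : ℚ}
    (hvt : v t = (β : WithTop ℚ)) (hβ : 0 < β) (hvε : v ε = 0) :
    cfh_Quot v (σ : K →+* K) p (fl_curve (s * t ^ p) ε) := by
  obtain ⟨k, rfl⟩ : ∃ k, p = k + 2 := ⟨p - 2, by omega⟩
  have hk : 1 ≤ k := by omega
  obtain ⟨X₀, Y₀, hns, hX₀, hY₀, hvX₀⟩ :=
    fq_exists_fixed_point v σ hσm h2 t s ε hs ht hε hvt hβ hvε k hk
  have hvs : v s = 0 := by
    rcases hs with rfl | rfl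
    · exact AddValuation.map_one v
    · rw [AddValuation.map_neg, AddValuation.map_one]
  have hpos : (0 : ℚ) < ((k + 2 : ℕ) : ℚ) * β := by positivity
  have hvδ : v (s * t ^ (k + 2)) = ((((k + 2 : ℕ) : ℚ) * β : ℚ) : WithTop ℚ) := by
    rw [AddValuation.map_mul, hvs, zero_add, fq_v_pow_coe v hvt]
  have hvX₀' : v X₀ = ((2 * (((k + 2 : ℕ) : ℚ) * β) / ((k + 2 : ℕ) : ℚ) : ℚ) : WithTop ℚ) := by
    rw [hvX₀]
    congr 1
    have : (((k + 2 : ℕ) : ℚ)) ≠ 0 := by positivity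
    field_simp
  intro hW x hx
  exact cfh_sub_mem_E1_mult v (σ : K →+* K) (fun a => by simpa using hσv a)
    (fun a ha => by simpa using hσm a ha) (s * t ^ (k + 2)) ε hW _ hpos hvδ hvε h2 (k + 2) hp
    X₀ Y₀ hns (by simpa using hX₀) (by simpa using hY₀) hvX₀' x hx

end core

section frey

variable {K : Type} [Field K] [DecidableEq K] [IsAlgClosed K] [CharZero K]

/-- **(i) on the Legendre model of the Frey curve, at the prime `p = P.p`.** -/
theorem cfh_legendre_quot (v : AddValuation K (WithTop ℚ)) (σ : K ≃+* K)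
    (hσv : ∀ a : K, v (σ a) = v a) (hσm : ∀ a : K, 0 ≤ v a → 0 < v (σ a - a))
    (hint : ∀ z : ℤ, 0 ≤ v (z : K)) (P : FreyPackage) (hvp : 0 < v (P.p : K)) :
    cfh_Quot v (σ : K →+* K) P.p (fl_curve ((P.a : K) ^ P.p) (-((P.b : K) ^ P.p))) := by
  have hp2 : P.p ≠ 2 := by have := P.hp5; omega
  have hp3 : 2 < P.p := by have := P.hp5; omega
  have h2 : v (2 : K) = 0 := fq_v_two v P.pp hint hvp hp2
  have hσz : ∀ z : ℤ, σ (z : K) = z := fun z => map_intCast σ z
  have hFLT : (P.a : K) ^ P.p + (P.b : K) ^ P.p = (P.c : K) ^ P.p := by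
    exact_mod_cast congrArg (fun z : ℤ => (z : K)) P.hFLT
  have hunit : ∀ z : ℤ, ¬ (P.p : ℤ) ∣ z → v ((z : K) ^ P.p) = 0 := by
    intro z hz
    rw [AddValuation.map_pow, fq_v_int_of_not_dvd v P.pp hint hvp hz, smul_zero]
  rcases fq_cases P P.pp with ⟨ha, hb, hc⟩ | ⟨ha, hb, hc⟩ | ⟨hb, ha, hc⟩ | ⟨hc, ha, hb⟩
  · -- good reduction
    intro hW x _
    refine cfh_sub_mem_E1_good v (σ : K →+* K) (fun a => by simpa using hσv a)
      (fun a ha => by simpa using hσm a ha) _ _ hW ?_ ?_ ?_ h2 x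
    · exact hunit _ ha
    · rw [AddValuation.map_neg]; exact hunit _ hb
    · rw [sub_neg_eq_add, hFLT]; exact hunit _ hc
  · -- p ∣ a
    obtain ⟨β, hβ, hvβ⟩ := fq_v_int_pos_coe v hint hvp P.ha0 ha
    have := cfh_mult_case v σ hσv hσm h2 hp3 1 (P.a : K) (-((P.b : K) ^ P.p))
      (Or.inl rfl) (hσz _) (by rw [map_neg, map_pow, hσz]) hvβ hβ
      (by rw [AddValuation.map_neg]; exact hunit _ hb)
    rwa [one_mul] at this
  · -- p ∣ b
    obtain ⟨β, hβ, hvβ⟩ := fq_v_int_pos_coe v hint hvp P.hb0 hb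
    have := cfh_mult_case v σ hσv hσm h2 hp3 (-1) (P.b : K) ((P.a : K) ^ P.p)
      (Or.inr rfl) (hσz _) (by rw [map_pow, hσz]) hvβ hβ (hunit _ ha)
    rw [neg_one_mul] at this
    exact cfh_Quot_of_eq (fq_curve_comm _ _) this
  · -- p ∣ c
    obtain ⟨β, hβ, hvβ⟩ := fq_v_int_pos_coe v hint hvp P.hc0 hc
    have := cfh_mult_case v σ hσv hσm h2 hp3 (-1) (P.c : K) (-((P.a : K) ^ P.p))
      (Or.inr rfl) (hσz _) (by rw [map_neg, map_pow, hσz]) hvβ hβ
      (by rw [AddValuation.map_neg]; exact hunit _ ha)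
    rw [neg_one_mul] at this
    refine cfh_Quot_transfer _ _ (fq_transl ((P.a : K) ^ P.p)) ?_ ?_ ?_ ?_ ?_ ?_ ?_ ?_ this
    · rw [fq_transl_curve, fq_curve_comm]
      congr 1
      rw [← hFLT]; ring
    · rw [fq_transl_u]; exact map_one _
    · rw [fq_transl_r]; simp only [RingEquiv.coe_toRingHom, map_pow, hσz]
    · rw [fq_transl_s]; exact map_zero _
    · rw [fq_transl_t]; exact map_zero _
    · rw [fq_transl_u]; exact AddValuation.map_one v
    · rw [fq_transl_r, AddValuation.map_pow]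
      exact nsmul_nonneg (hint _) _
    · exact fab_fl_curve_map (σ : K →+* K)
        (by simp only [RingEquiv.coe_toRingHom, map_neg, map_pow, hσz])
        (by simp only [RingEquiv.coe_toRingHom, map_neg, map_pow, hσz])

omit [IsAlgClosed K] [CharZero K] in
/-- `E₁` is a subgroup on the Legendre model of the Frey curve. -/
theorem cfh_legendre_E1Sub (v : AddValuation K (WithTop ℚ))
    (hint : ∀ z : ℤ, 0 ≤ v (z : K)) (P : FreyPackage) :
    cfh_E1Sub v (fl_curve ((P.a : K) ^ P.p) (-((P.b : K) ^ P.p))) := by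
  intro x y hx hy
  refine cfh_E1_sub v ?_ ?_ hx hy
  · rw [AddValuation.map_pow]; exact nsmul_nonneg (hint _) _
  · rw [AddValuation.map_neg, AddValuation.map_pow]; exact nsmul_nonneg (hint _) _

variable [Algebra ℚ K]

/-- **(i) on the Frey model, at the prime `p = P.p`.** -/
theorem cfh_frey_quot (v : AddValuation K (WithTop ℚ)) (σ : K ≃+* K)
    (hσv : ∀ a : K, v (σ a) = v a) (hσm : ∀ a : K, 0 ≤ v a → 0 < v (σ a - a))
    (hint : ∀ z : ℤ, 0 ≤ v (z : K)) (P : FreyPackage) (hvp : 0 < v (P.p : K)) :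
    cfh_Quot v (σ : K →+* K) P.p (P.freyCurve.baseChange K) := by
  have hp2 : P.p ≠ 2 := by have := P.hp5; omega
  have h2 : v (2 : K) = 0 := fq_v_two v P.pp hint hvp hp2
  have h2ne : (2 : K) ≠ 0 := two_ne_zero
  have hσz : ∀ z : ℤ, σ (z : K) = z := fun z => map_intCast σ z
  refine cfh_Quot_transfer _ _ (fq_vc h2ne) (fq_frey_curve P h2ne) ?_ ?_ ?_ ?_ ?_ ?_ ?_
    (cfh_legendre_quot v σ hσv hσm hint P hvp)
  · rw [fq_vc_u]; simp only [map_inv₀, map_ofNat]
  · rw [fq_vc_r]; exact map_zero _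
  · rw [fq_vc_s]; simp only [map_neg, map_inv₀, map_ofNat]
  · rw [fq_vc_t]; exact map_zero _
  · rw [fq_vc_u, AddValuation.map_inv, h2, _root_.neg_zero]
  · rw [fq_vc_r, AddValuation.map_zero]; exact le_top
  · exact fab_fl_curve_map (σ : K →+* K)
      (by simp only [RingEquiv.coe_toRingHom, map_pow, hσz])
      (by simp only [RingEquiv.coe_toRingHom, map_neg, map_pow, hσz])

omit [IsAlgClosed K] in
/-- `E₁` is a subgroup on the Frey model (`v 2 = 0`). -/
theorem cfh_frey_E1Sub (v : AddValuation K (WithTop ℚ))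
    (hint : ∀ z : ℤ, 0 ≤ v (z : K)) (P : FreyPackage) (h2 : v (2 : K) = 0) :
    cfh_E1Sub v (P.freyCurve.baseChange K) := by
  have h2ne : (2 : K) ≠ 0 := two_ne_zero
  refine cfh_E1Sub_transfer _ _ (fq_vc h2ne) (fq_frey_curve P h2ne) ?_ ?_
    (cfh_legendre_E1Sub v hint P)
  · rw [fq_vc_u, AddValuation.map_inv, h2, _root_.neg_zero]
  · rw [fq_vc_r, AddValuation.map_zero]; exact le_top

end frey

end Fermat.Agent.Lib.S13
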