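/-
M1 / S13, local analysis at `p`, (SS) core, field-theoretic layer.

`ℚ̄` with a `ℚ`-valued valuation `v` that is integer-valued on `ℚˣ`, `v p = 1`.  If the finite set
`S = S₁ ⊔ S₂` of elements of negative valuation splits into two nonempty `G_ℚ`-stable parts, then
`v (∏_S ξ) ≤ −2`; so the product formula `(p² (∏_S ξ)²)² = (δ ε)^(p²−1)` with units `δ`, `ε`
(which forces `v (∏_S ξ) = −1`) is contradictory.
-/
import Mathlib
import Fermat.Prelude.Def_FLTPrelim_GaloisRep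

set_option autoImplicit false

namespace Fermat.Agent.Lib.S13

local notation "Qb" => AlgebraicClosure ℚ

/-- `AlgebraicClosure ℚ` is Galois over `ℚ` (for the `ℚ`-algebra structure found by instance
resolution). -/
theorem cfh_isGalois_Qb : IsGalois ℚ Qb := by
  have h0 : (DivisionRing.toRatAlgebra : Algebra ℚ Qb) = AlgebraicClosure.instAlgebra ℚ :=
    Subsingleton.elim _ _
  have h1 : Algebra.IsAlgebraic ℚ Qb := by
    have h := AlgebraicClosure.isAlgebraic ℚ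
    rw [← h0] at h
    exact h
  have h2 : IsAlgClosure ℚ Qb := ⟨inferInstance, inferInstance⟩
  exact IsAlgClosure.isGalois ℚ Qb

/-- The product of a finite `G_ℚ`-stable subset of `ℚ̄` is rational. -/
theorem cfh_prod_rational (S : Finset Qb) (hS : ∀ σ : Qb ≃ₐ[ℚ] Qb, ∀ ξ ∈ S, σ ξ ∈ S) :
    ∃ r : ℚ, algebraMap ℚ Qb r = ∏ ξ ∈ S, ξ := by
  have := cfh_isGalois_Qb
  have hfix : ∀ σ : Qb ≃ₐ[ℚ] Qb, σ (∏ ξ ∈ S, ξ) = ∏ ξ ∈ S, ξ := by
    intro σ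
    rw [map_prod]
    have himg : S.image σ = S := by
      apply Finset.eq_of_subset_of_card_le
      · intro η hη
        obtain ⟨ξ, hξ, rfl⟩ := Finset.mem_image.mp hη
        exact hS σ ξ hξ
      · rw [Finset.card_image_of_injective _ σ.injective]
    conv_rhs => rw [← himg]
    rw [Finset.prod_image (fun a _ b _ h => σ.injective h)]
  exact (InfiniteGalois.mem_range_algebraMap_iff_fixed (k := ℚ) (K := Qb) _).mpr hfix

variable (v : AddValuation Qb (WithTop ℚ))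

/-- A product of elements of non-positive valuation has non-positive valuation; negative if the
set is nonempty and all valuations are negative. -/
theorem cfh_v_prod_neg (S : Finset Qb) (hneg : ∀ ξ ∈ S, v ξ < 0) :
    v (∏ ξ ∈ S, ξ) ≤ 0 ∧ (S.Nonempty → v (∏ ξ ∈ S, ξ) < 0) := by
  classical
  induction S using Finset.induction_on with
  | empty =>
    refine ⟨?_, fun h => absurd h Finset.not_nonempty_empty⟩
    rw [Finset.prod_empty, v.map_one]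
  | insert a S ha ih =>
    have h1 := ih (fun ξ hξ => hneg ξ (Finset.mem_insert_of_mem hξ))
    have h2 : v a < 0 := hneg a (Finset.mem_insert_self a S)
    rw [Finset.prod_insert ha, v.map_mul]
    have hlt : v a + v (∏ ξ ∈ S, ξ) < 0 := by
      calc v a + v (∏ ξ ∈ S, ξ) ≤ v a + 0 := by gcongr; exact h1.1
        _ = v a := add_zero _
        _ < 0 := h2
    exact ⟨hlt.le, fun _ => hlt⟩

/-- **(SS) core.** -/
theorem cfh_ss_field
    (hvrat : ∀ r : ℚ, r ≠ 0 → ∃ k : ℤ, v (algebraMap ℚ Qb r) = ((k : ℚ) : WithTop ℚ))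
    (p : ℕ) (hvp : v (p : Qb) = 1) (δ ε : Qb) (hδ : v δ = 0) (hε : v ε = 0)
    (S₁ S₂ : Finset Qb) (hdisj : Disjoint S₁ S₂) (h₁ : S₁.Nonempty) (h₂ : S₂.Nonempty)
    (hneg₁ : ∀ ξ ∈ S₁, v ξ < 0) (hneg₂ : ∀ ξ ∈ S₂, v ξ < 0)
    (hσ₁ : ∀ σ : Qb ≃ₐ[ℚ] Qb, ∀ ξ ∈ S₁, σ ξ ∈ S₁)
    (hσ₂ : ∀ σ : Qb ≃ₐ[ℚ] Qb, ∀ ξ ∈ S₂, σ ξ ∈ S₂)
    (hPF : ((p : Qb) ^ 2 * (∏ ξ ∈ S₁ ∪ S₂, ξ) ^ 2) ^ 2 = (δ * ε) ^ (p ^ 2 - 1)) : False := by
  classical
  -- integrality of the two partial products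
  have key : ∀ S : Finset Qb, S.Nonempty → (∀ ξ ∈ S, v ξ < 0) →
      (∀ σ : Qb ≃ₐ[ℚ] Qb, ∀ ξ ∈ S, σ ξ ∈ S) →
      ∃ k : ℤ, k ≤ -1 ∧ v (∏ ξ ∈ S, ξ) = ((k : ℚ) : WithTop ℚ) := by
    intro S hne hneg hσ
    obtain ⟨r, hr⟩ := cfh_prod_rational S hσ
    have hlt := (cfh_v_prod_neg v S hneg).2 hne
    have hr0 : r ≠ 0 := by
      rintro rfl
      rw [map_zero] at hr
      rw [← hr, v.map_zero] at hlt
      exact absurd hlt (not_lt.mpr le_top)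
    obtain ⟨k, hk⟩ := hvrat r hr0
    rw [hr] at hk
    refine ⟨k, ?_, hk⟩
    rw [hk] at hlt
    have : (k : ℚ) < 0 := by exact_mod_cast hlt
    have : k < 0 := by exact_mod_cast this
    omega
  obtain ⟨k₁, hk₁, hv₁⟩ := key S₁ h₁ hneg₁ hσ₁
  obtain ⟨k₂, hk₂, hv₂⟩ := key S₂ h₂ hneg₂ hσ₂
  have hprod : v (∏ ξ ∈ S₁ ∪ S₂, ξ) = (((k₁ + k₂ : ℤ) : ℚ) : WithTop ℚ) := by
    rw [Finset.prod_union hdisj, v.map_mul, hv₁, hv₂, ← WithTop.coe_add]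
    congr 1
    push_cast
    rfl
  have hL : v (((p : Qb) ^ 2 * (∏ ξ ∈ S₁ ∪ S₂, ξ) ^ 2) ^ 2) =
      ((2 * (2 * 1 + 2 * ((k₁ + k₂ : ℤ) : ℚ)) : ℚ) : WithTop ℚ) := by
    rw [v.map_pow, v.map_mul, v.map_pow, v.map_pow, hvp, hprod]
    have h1 : (1 : WithTop ℚ) = ((1 : ℚ) : WithTop ℚ) := rfl
    rw [h1, ← WithTop.coe_nsmul, ← WithTop.coe_nsmul, ← WithTop.coe_add, ← WithTop.coe_nsmul]
    congr 1
  have hR : v ((δ * ε) ^ (p ^ 2 - 1)) = ((0 : ℚ) : WithTop ℚ) := by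
    rw [v.map_pow, v.map_mul, hδ, hε, add_zero, smul_zero]
    rfl
  rw [hPF, hR] at hL
  have h0 : (0 : ℚ) = 2 * (2 * 1 + 2 * ((k₁ + k₂ : ℤ) : ℚ)) := by exact_mod_cast hL
  have h3 : ((k₁ + k₂ : ℤ) : ℚ) = -1 := by linarith
  have h4 : k₁ + k₂ = -1 := by exact_mod_cast h3
  omega

end Fermat.Agent.Lib.S13
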