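/-
M1 / S13, local analysis at `p`, (SS) core, elliptic layer on a Legendre-type model
`W = fl_curve δ ε` over `ℚ̄` with `δ`, `ε` rational `p`-units.

If every `p`-torsion point of `W` lies in the kernel of reduction `E₁`, then there is no
`G_ℚ`-stable subset `N` of points, containing `0`, closed under negation, containing a nonzero
`p`-torsion point and missing a `p`-torsion point.  (Input: the product formula (PF).)
-/
import Mathlib
import Fermat.Agent.Lib.S13.LocB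
import Fermat.Agent.Lib.S13.LocE
import Fermat.Agent.Lib.S13.IfacePF

set_option autoImplicit false

namespace Fermat.Agent.Lib.S13

open WeierstrassCurve WeierstrassCurve.Affine WeierstrassCurve.Affine.Point
open Fermat.Agent.Lib.Frey

local notation "Qb" => AlgebraicClosure ℚ

/-- The abscissa of a point (`0` for the point at infinity). -/
def cfh_xc {K : Type*} [Field K] {W : WeierstrassCurve K} : W.toAffine.Point → K
  | .zero => 0
  | .some x _ _ => x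

@[simp] theorem cfh_xc_some {K : Type*} [Field K] {W : WeierstrassCurve K} {x y : K}
    (h : W.toAffine.Nonsingular x y) : cfh_xc (Point.some x y h) = x := rfl

/-- A nonzero point is affine. -/
theorem cfh_exists_some {K : Type*} [Field K] {W : WeierstrassCurve K} {Q : W.toAffine.Point}
    (hQ : Q ≠ 0) : ∃ (x y : K) (h : W.toAffine.Nonsingular x y), Q = Point.some x y h := by
  rcases Q with _ | ⟨x, y, h⟩
  · exact absurd rfl hQ
  · exact ⟨x, y, h, rfl⟩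

/-- Two affine points with the same abscissa are equal or opposite. -/
theorem cfh_eq_or_eq_neg {K : Type*} [Field K] [DecidableEq K] {W : WeierstrassCurve K}
    {x y₁ y₂ : K} (h₁ : W.toAffine.Nonsingular x y₁) (h₂ : W.toAffine.Nonsingular x y₂) :
    Point.some x y₂ h₂ = Point.some x y₁ h₁ ∨ Point.some x y₂ h₂ = -Point.some x y₁ h₁ := by
  rcases Affine.Y_eq_of_X_eq h₂.1 h₁.1 rfl with h | h
  · left; subst h; rfl
  · right
    rw [neg_some]
    exact fvc_some_congr rfl h _ _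

section ss

variable (v : AddValuation Qb (WithTop ℚ))

/-- **(SS) on a Legendre-type model with rational unit roots.** -/
theorem cfh_ss_legendre (hPF : s13_IfacePF)
    (hvrat : ∀ r : ℚ, r ≠ 0 → ∃ k : ℤ, v (algebraMap ℚ Qb r) = ((k : ℚ) : WithTop ℚ))
    (p : ℕ) (hp : Odd p) (hvp : v (p : Qb) = 1) (δ ε : Qb) (hδ : v δ = 0) (hε : v ε = 0)
    (hδε : δ ≠ ε)
    (hW : ∀ σ : Qb ≃ₐ[ℚ] Qb,
      (fl_curve δ ε).map ((σ : Qb ≃+* Qb) : Qb →+* Qb) = fl_curve δ ε)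
    (hfin : {Q : (fl_curve δ ε).toAffine.Point | p • Q = 0}.Finite)
    (hE1 : ∀ Q : (fl_curve δ ε).toAffine.Point, p • Q = 0 → fl_InE1 v Q)
    (N : Set (fl_curve δ ε).toAffine.Point) (hN0 : (0 : (fl_curve δ ε).toAffine.Point) ∈ N)
    (hNneg : ∀ Q ∈ N, -Q ∈ N)
    (hNσ : ∀ (σ : Qb ≃ₐ[ℚ] Qb) (Q : (fl_curve δ ε).toAffine.Point),
      Q ∈ N ↔ fab_sigma ((σ : Qb ≃+* Qb) : Qb →+* Qb) (fl_curve δ ε) (hW σ) Q ∈ N)
    (hN1 : ∃ Q ∈ N, p • Q = 0 ∧ Q ≠ 0) (hN2 : ∃ Q, p • Q = 0 ∧ Q ∉ N) : False := by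
  classical
  have hδ0 : δ ≠ 0 := by
    rintro rfl
    rw [v.map_zero] at hδ
    exact WithTop.top_ne_zero hδ
  have hε0 : ε ≠ 0 := by
    rintro rfl
    rw [v.map_zero] at hε
    exact WithTop.top_ne_zero hε
  set Vp : Finset (fl_curve δ ε).toAffine.Point := hfin.toFinset with hVp
  have hmemVp : ∀ Q, Q ∈ Vp ↔ p • Q = 0 := fun Q => by
    rw [hVp, Set.Finite.mem_toFinset]; rfl
  set S₁ : Finset Qb := (Vp.filter (fun Q => Q ≠ 0 ∧ Q ∈ N)).image cfh_xc with hS₁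
  set S₂ : Finset Qb := (Vp.filter (fun Q => Q ∉ N)).image cfh_xc with hS₂
  have hmem₁ : ∀ ξ, ξ ∈ S₁ ↔ ∃ (y : Qb) (h : (fl_curve δ ε).toAffine.Nonsingular ξ y),
      p • (Point.some ξ y h) = 0 ∧ Point.some ξ y h ∈ N := by
    intro ξ
    rw [hS₁, Finset.mem_image]
    constructor
    · rintro ⟨Q, hQ, rfl⟩
      rw [Finset.mem_filter, hmemVp] at hQ
      obtain ⟨x, y, h, rfl⟩ := cfh_exists_some hQ.2.1
      exact ⟨y, h, hQ.1, hQ.2.2⟩
    · rintro ⟨y, h, hp0, hN⟩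
      refine ⟨Point.some ξ y h, ?_, rfl⟩
      rw [Finset.mem_filter, hmemVp]
      exact ⟨hp0, (by intro h4; cases h4), hN⟩
  have hmem₂ : ∀ ξ, ξ ∈ S₂ ↔ ∃ (y : Qb) (h : (fl_curve δ ε).toAffine.Nonsingular ξ y),
      p • (Point.some ξ y h) = 0 ∧ Point.some ξ y h ∉ N := by
    intro ξ
    rw [hS₂, Finset.mem_image]
    constructor
    · rintro ⟨Q, hQ, rfl⟩
      rw [Finset.mem_filter, hmemVp] at hQ
      have hQ0 : Q ≠ 0 := by
        rintro rfl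
        exact hQ.2 hN0
      obtain ⟨x, y, h, rfl⟩ := cfh_exists_some hQ0
      exact ⟨y, h, hQ.1, hQ.2⟩
    · rintro ⟨y, h, hp0, hN⟩
      refine ⟨Point.some ξ y h, ?_, rfl⟩
      rw [Finset.mem_filter, hmemVp]
      exact ⟨hp0, hN⟩
  -- the product formula
  have hS : ∀ ξ : Qb, ξ ∈ S₁ ∪ S₂ ↔ ∃ (y : Qb) (h : (fl_curve δ ε).toAffine.Nonsingular ξ y),
      p • (Affine.Point.some ξ y h) = 0 := by
    intro ξ
    rw [Finset.mem_union, hmem₁, hmem₂]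
    constructor
    · rintro (⟨y, h, h0, -⟩ | ⟨y, h, h0, -⟩) <;> exact ⟨y, h, h0⟩
    · rintro ⟨y, h, h0⟩
      by_cases hN : Point.some ξ y h ∈ N
      · exact Or.inl ⟨y, h, h0, hN⟩
      · exact Or.inr ⟨y, h, h0, hN⟩
  have hform := hPF δ ε hδ0 hε0 hδε p hp (S₁ ∪ S₂) hS
  -- the action of `σ` on torsion points
  have hσtors : ∀ (σ : Qb ≃ₐ[ℚ] Qb) (Q : (fl_curve δ ε).toAffine.Point), p • Q = 0 →
      p • fab_sigma ((σ : Qb ≃+* Qb) : Qb →+* Qb) (fl_curve δ ε) (hW σ) Q = 0 := by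
    intro σ Q hQ
    rw [← map_nsmul, hQ, _root_.map_zero]
  refine cfh_ss_field v hvrat p hvp δ ε hδ hε S₁ S₂ ?_ ?_ ?_ ?_ ?_ ?_ ?_ hform
  · -- disjointness
    rw [Finset.disjoint_left]
    intro ξ h1 h2
    obtain ⟨y₁, hns₁, -, hN₁⟩ := (hmem₁ ξ).mp h1
    obtain ⟨y₂, hns₂, -, hN₂⟩ := (hmem₂ ξ).mp h2
    rcases cfh_eq_or_eq_neg hns₁ hns₂ with h | h
    · exact hN₂ (h ▸ hN₁)
    · exact hN₂ (h ▸ hNneg _ hN₁)
  · -- S₁ nonempty
    obtain ⟨Q, hQN, hQ0, hQne⟩ := hN1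
    obtain ⟨x, y, h, rfl⟩ := cfh_exists_some hQne
    exact ⟨x, (hmem₁ x).mpr ⟨y, h, hQ0, hQN⟩⟩
  · -- S₂ nonempty
    obtain ⟨Q, hQ0, hQN⟩ := hN2
    have hQne : Q ≠ 0 := by
      rintro rfl
      exact hQN hN0
    obtain ⟨x, y, h, rfl⟩ := cfh_exists_some hQne
    exact ⟨x, (hmem₂ x).mpr ⟨y, h, hQ0, hQN⟩⟩
  · -- negativity on S₁
    intro ξ hξ
    obtain ⟨y, h, h0, -⟩ := (hmem₁ ξ).mp hξ
    exact (cfh_inE1_some_iff v h).mp (hE1 _ h0)
  · -- negativity on S₂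
    intro ξ hξ
    obtain ⟨y, h, h0, -⟩ := (hmem₂ ξ).mp hξ
    exact (cfh_inE1_some_iff v h).mp (hE1 _ h0)
  · -- stability of S₁
    intro σ ξ hξ
    obtain ⟨y, h, h0, hN⟩ := (hmem₁ ξ).mp hξ
    have h1 := hσtors σ _ h0
    have h2 := (hNσ σ _).mp hN
    rw [fab_sigma_some] at h1 h2
    exact (hmem₁ _).mpr ⟨_, _, h1, h2⟩
  · -- stability of S₂
    intro σ ξ hξ
    obtain ⟨y, h, h0, hN⟩ := (hmem₂ ξ).mp hξ
    have h1 := hσtors σ _ h0
    have h2 : fab_sigma ((σ : Qb ≃+* Qb) : Qb →+* Qb) (fl_curve δ ε) (hW σ) (Point.some ξ y h) ∉ N :=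
      fun hc => hN ((hNσ σ _).mpr hc)
    rw [fab_sigma_some] at h1 h2
    exact (hmem₂ _).mpr ⟨_, _, h1, h2⟩

end ss

end Fermat.Agent.Lib.S13
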