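/-
M1 / S13, local analysis at `p`: the "far-origin" Legendre model of the Frey curve at `p`.

Among the three Legendre-type models `Y² = X (X − δ) (X − ε)` of the Frey curve obtained by putting
one of the three `2`-torsion points at the origin, (at least) one has `δ`, `ε` BOTH `p`-units
(`δ − ε` may be a non-unit): the origin is the `2`-torsion point which is not congruent to the other
two.  We produce it together with a group isomorphism `e` from its points to the points of the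
(frozen) Frey model, preserving the kernel of reduction `E₁` and commuting with every field
automorphism (generic field `K`; specialised to `ℚ̄` in `LocH`).
-/
import Mathlib
import Fermat.Agent.Lib.S13.LocC

set_option autoImplicit false

namespace Fermat.Agent.Lib.S13

open WeierstrassCurve WeierstrassCurve.Affine WeierstrassCurve.Affine.Point
open Fermat.Agent.Lib.Frey

variable {K : Type} [Field K] [DecidableEq K] [CharZero K] [Algebra ℚ K]

/-- A group isomorphism from the points of `fl_curve δ ε` to the points of the Frey curve over `K`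
which preserves `E₁` and commutes with the automorphisms of `K`. -/
def cfh_GoodEquiv (P : FreyPackage) (v : AddValuation K (WithTop ℚ)) (δ ε : K)
    (e : (fl_curve δ ε).toAffine.Point ≃+ (P.freyCurve.baseChange K).toAffine.Point) : Prop :=
  (∀ Q, fl_InE1 v (e Q) ↔ fl_InE1 v Q) ∧
  (∀ (σ : K ≃+* K) (hW' : (fl_curve δ ε).map (σ : K →+* K) = fl_curve δ ε)
    (hWF : (P.freyCurve.baseChange K).map (σ : K →+* K) = P.freyCurve.baseChange K)
    (Q : (fl_curve δ ε).toAffine.Point),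
    e (fab_sigma (σ : K →+* K) (fl_curve δ ε) hW' Q) =
      fab_sigma (σ : K →+* K) (P.freyCurve.baseChange K) hWF (e Q))

/-- Base case: the Legendre model `Y² = X (X − a^p) (X + b^p)`. -/
theorem cfh_goodEquiv_base (P : FreyPackage) (v : AddValuation K (WithTop ℚ))
    (h2 : v (2 : K) = 0) (h2ne : (2 : K) ≠ 0) :
    cfh_GoodEquiv P v ((P.a : K) ^ P.p) (-((P.b : K) ^ P.p))
      (fvc_pointEquivOfEq (P.freyCurve.baseChange K) _ (fq_vc h2ne) (fq_frey_curve P h2ne)) := by
  refine ⟨fun Q => ?_, fun σ hW' hWF Q => ?_⟩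
  · refine cfh_equiv_inE1 v _ _ _ _ ?_ ?_ Q
    · rw [fq_vc_u, AddValuation.map_inv, h2, _root_.neg_zero]
    · rw [fq_vc_r, AddValuation.map_zero]; exact le_top
  · refine cfh_equiv_sigma _ _ _ _ _ hWF hW' ?_ ?_ ?_ ?_ Q
    · rw [fq_vc_u]; simp only [map_inv₀, map_ofNat]
    · rw [fq_vc_r]; exact map_zero _
    · rw [fq_vc_s]; simp only [map_neg, map_inv₀, map_ofNat]
    · rw [fq_vc_t]; exact map_zero _

omit [CharZero K] in
/-- Step: translating the origin to the root `δ` (an integer of `K` fixed by all automorphisms):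
the new model is `fl_curve (−δ) (ε − δ)`. -/
theorem cfh_goodEquiv_transl (P : FreyPackage) (v : AddValuation K (WithTop ℚ)) (δ ε : K)
    (e₀ : (fl_curve δ ε).toAffine.Point ≃+ (P.freyCurve.baseChange K).toAffine.Point)
    (h₀ : cfh_GoodEquiv P v δ ε e₀) (hδ : 0 ≤ v δ) (hσδ : ∀ σ : K ≃+* K, σ δ = δ)
    (hσε : ∀ σ : K ≃+* K, σ ε = ε) :
    cfh_GoodEquiv P v (-δ) (ε - δ)
      ((fvc_pointEquivOfEq (fl_curve δ ε) _ (fq_transl δ) (fq_transl_curve δ ε)).trans e₀) := by
  refine ⟨fun Q => ?_, fun σ hW' hWF Q => ?_⟩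
  · rw [AddEquiv.trans_apply, h₀.1]
    refine cfh_equiv_inE1 v _ _ _ _ ?_ ?_ Q
    · rw [fq_transl_u]; exact AddValuation.map_one v
    · rw [fq_transl_r]; exact hδ
  · have hW₀ : (fl_curve δ ε).map (σ : K →+* K) = fl_curve δ ε :=
      fab_fl_curve_map (σ : K →+* K) (by simpa using hσδ σ) (by simpa using hσε σ)
    rw [AddEquiv.trans_apply, AddEquiv.trans_apply,
      cfh_equiv_sigma (fl_curve δ ε) _ (fq_transl δ) (fq_transl_curve δ ε) _ hW₀ hW' ?_ ?_ ?_ ?_,
      h₀.2 σ hW₀ hWF]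
    · rw [fq_transl_u]; exact map_one _
    · rw [fq_transl_r]; simpa using hσδ σ
    · rw [fq_transl_s]; exact map_zero _
    · rw [fq_transl_t]; exact map_zero _

omit [DecidableEq K] [CharZero K] [Algebra ℚ K] in
/-- translating `Y² = X (X − δ)(X − ε)` by the root `ε` gives `Y² = X (X − (δ − ε))(X + ε)` -/
theorem cfh_transl_curve' (δ ε : K) :
    fq_transl ε • fl_curve δ ε = fl_curve (δ - ε) (-ε) := by
  ext
  · simp [variableChange_a₁, fl_curve, fq_transl]
  · simp [variableChange_a₂, fl_curve, fq_transl]; ring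
  · simp [variableChange_a₃, fl_curve, fq_transl]
  · simp [variableChange_a₄, fl_curve, fq_transl]; ring
  · simp [variableChange_a₆, fl_curve, fq_transl]; ring

omit [CharZero K] in
/-- Step: translating the origin to the root `ε`: the new model is `fl_curve (δ − ε) (−ε)`. -/
theorem cfh_goodEquiv_transl' (P : FreyPackage) (v : AddValuation K (WithTop ℚ)) (δ ε : K)
    (e₀ : (fl_curve δ ε).toAffine.Point ≃+ (P.freyCurve.baseChange K).toAffine.Point)
    (h₀ : cfh_GoodEquiv P v δ ε e₀) (hε : 0 ≤ v ε) (hσδ : ∀ σ : K ≃+* K, σ δ = δ)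
    (hσε : ∀ σ : K ≃+* K, σ ε = ε) :
    cfh_GoodEquiv P v (δ - ε) (-ε)
      ((fvc_pointEquivOfEq (fl_curve δ ε) _ (fq_transl ε) (cfh_transl_curve' δ ε)).trans e₀) := by
  refine ⟨fun Q => ?_, fun σ hW' hWF Q => ?_⟩
  · rw [AddEquiv.trans_apply, h₀.1]
    refine cfh_equiv_inE1 v _ _ _ _ ?_ ?_ Q
    · rw [fq_transl_u]; exact AddValuation.map_one v
    · rw [fq_transl_r]; exact hε
  · have hW₀ : (fl_curve δ ε).map (σ : K →+* K) = fl_curve δ ε :=
      fab_fl_curve_map (σ : K →+* K) (by simpa using hσδ σ) (by simpa using hσε σ)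
    rw [AddEquiv.trans_apply, AddEquiv.trans_apply,
      cfh_equiv_sigma (fl_curve δ ε) _ (fq_transl ε) (cfh_transl_curve' δ ε) _ hW₀ hW' ?_ ?_ ?_ ?_,
      h₀.2 σ hW₀ hWF]
    · rw [fq_transl_u]; exact map_one _
    · rw [fq_transl_r]; simpa using hσε σ
    · rw [fq_transl_s]; exact map_zero _
    · rw [fq_transl_t]; exact map_zero _

/-- **The far-origin model.** -/
theorem cfh_exists_far_model (P : FreyPackage) (v : AddValuation K (WithTop ℚ))
    (hint : ∀ z : ℤ, 0 ≤ v (z : K)) (hvp : 0 < v (P.p : K)) :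
    ∃ (δ ε : K) (e : (fl_curve δ ε).toAffine.Point ≃+ (P.freyCurve.baseChange K).toAffine.Point),
      v δ = 0 ∧ v ε = 0 ∧ δ ≠ ε ∧ (∀ σ : K ≃+* K, σ δ = δ) ∧ (∀ σ : K ≃+* K, σ ε = ε) ∧
        cfh_GoodEquiv P v δ ε e := by
  have hp2 : P.p ≠ 2 := by have := P.hp5; omega
  have h2 : v (2 : K) = 0 := fq_v_two v P.pp hint hvp hp2
  have h2ne : (2 : K) ≠ 0 := two_ne_zero
  have hσz : ∀ (σ : K ≃+* K) (z : ℤ), σ (z : K) = z := fun σ z => map_intCast σ z
  have hFLT : (P.a : K) ^ P.p + (P.b : K) ^ P.p = (P.c : K) ^ P.p := by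
    exact_mod_cast congrArg (fun z : ℤ => (z : K)) P.hFLT
  have hunit : ∀ z : ℤ, ¬ (P.p : ℤ) ∣ z → v ((z : K) ^ P.p) = 0 := by
    intro z hz
    rw [AddValuation.map_pow, fq_v_int_of_not_dvd v P.pp hint hvp hz, smul_zero]
  have hnn : ∀ z : ℤ, 0 ≤ v ((z : K) ^ P.p) := by
    intro z
    rw [AddValuation.map_pow]; exact nsmul_nonneg (hint z) _
  have hne0 : ∀ z : ℤ, z ≠ 0 → (z : K) ^ P.p ≠ 0 := by
    intro z hz
    exact pow_ne_zero _ (by exact_mod_cast hz)
  have hσa : ∀ σ : K ≃+* K, σ ((P.a : K) ^ P.p) = (P.a : K) ^ P.p := fun σ => by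
    rw [map_pow, hσz]
  have hσb : ∀ σ : K ≃+* K, σ (-((P.b : K) ^ P.p)) = -((P.b : K) ^ P.p) := fun σ => by
    rw [map_neg, map_pow, hσz]
  have hbase := cfh_goodEquiv_base (K := K) P v h2 h2ne
  by_cases ha : (P.p : ℤ) ∣ P.a
  · -- `p ∣ a`: origin at the root `−b^p`
    have hb : ¬ (P.p : ℤ) ∣ P.b := fq_not_dvd_of_gcd P.hgcdab P.pp ha
    have hc : ¬ (P.p : ℤ) ∣ P.c := fq_not_dvd_of_gcd P.hgcdac P.pp ha
    refine ⟨_, _, _, ?_, ?_, ?_, ?_, ?_,
      cfh_goodEquiv_transl' P v _ _ _ hbase ?_ hσa hσb⟩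
    · rw [sub_neg_eq_add, hFLT]; exact hunit _ hc
    · rw [neg_neg]; exact hunit _ hb
    · rw [neg_neg, sub_neg_eq_add]
      intro h
      exact hne0 _ P.ha0 (by linear_combination h)
    · intro σ; rw [map_sub, hσa, hσb]
    · intro σ; rw [map_neg, hσb]
    · rw [AddValuation.map_neg]; exact hnn _
  · by_cases hb : (P.p : ℤ) ∣ P.b
    · -- `p ∣ b`: origin at the root `a^p`
      have hc : ¬ (P.p : ℤ) ∣ P.c := fq_not_dvd_of_gcd P.hgcdbc P.pp hb
      refine ⟨_, _, _, ?_, ?_, ?_, ?_, ?_,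
        cfh_goodEquiv_transl P v _ _ _ hbase (hnn _) hσa hσb⟩
      · rw [AddValuation.map_neg]; exact hunit _ ha
      · have : -((P.b : K) ^ P.p) - (P.a : K) ^ P.p = -((P.c : K) ^ P.p) := by
          rw [← hFLT]; ring
        rw [this, AddValuation.map_neg]; exact hunit _ hc
      · intro h
        exact hne0 _ P.hb0 (by linear_combination h)
      · intro σ; rw [map_neg, hσa]
      · intro σ; rw [map_sub, hσa, hσb]
    · -- `p ∤ a b`: the base model
      refine ⟨_, _, _, hunit _ ha, ?_, ?_, hσa, hσb, hbase⟩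
      · rw [AddValuation.map_neg]; exact hunit _ hb
      · intro h
        apply hne0 _ P.hc0
        rw [← hFLT]
        linear_combination h

end Fermat.Agent.Lib.S13
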