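/-
M1 / S13: the interface statement (B) `s13_IfaceLocalP` (local analysis at `p`) from the product
formula (PF) `s13_IfacePF` and the cardinality (A) `s13_IfaceCard` (only finiteness is used).

`T := cfh_T₀ P A hA` is the kernel of reduction inside `V = E[p](ℚ̄)`; inertia acts trivially on
`V ⧸ T` (`cfh_T_quot`), and if `T = V` then `V` has no proper nonzero `G_ℚ`-stable submodule
(`cfh_ss_legendre` on the far-origin Legendre model).
-/
import Mathlib
import Fermat.Agent.Lib.S13.LocD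
import Fermat.Agent.Lib.S13.LocF
import Fermat.Agent.Lib.S13.LocG
import Fermat.Agent.Lib.S13.Iface

set_option autoImplicit false

namespace Fermat.Agent.Lib.S13

open WeierstrassCurve WeierstrassCurve.Affine WeierstrassCurve.Affine.Point
open Fermat.Agent.Lib.Frey

local notation "Qb" => AlgebraicClosure ℚ

/-- The valuation `cfh_vp` is integer-valued on `ℚˣ`. -/
theorem cfh_vp_rat (P : FreyPackage) (A : ValuationSubring Qb) (hA : A.LiesOverPrime P.p)
    (r : ℚ) (hr : r ≠ 0) :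
    ∃ k : ℤ, cfh_vp P A hA (algebraMap ℚ Qb r) = ((k : ℚ) : WithTop ℚ) :=
  ⟨padicValRat P.p r, ford_vQ_algebraMap P.pp hA hr⟩

/-- **(B) `s13_IfaceLocalP` from (PF) and (A).** -/
theorem cfh_ifaceLocalP (hPF : s13_IfacePF) (hcard : s13_IfaceCard) : s13_IfaceLocalP := by
  intro P A hA
  refine ⟨cfh_T₀ P A hA, fun σ hσ x => cfh_T_quot P A hA σ hσ x, fun hT N hN => ?_⟩
  by_contra hcon
  rw [not_or] at hcon
  obtain ⟨hNbot, hNtop⟩ := hcon
  obtain ⟨δ, ε, e, hδ, hε, hδε, hσδ, hσε, hE1e, hσe⟩ :=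
    cfh_exists_far_model (K := Qb) P (cfh_vp P A hA) (cfh_vp_int P A hA) (cfh_vp_p_pos P A hA)
  have hW : ∀ σ : Qb ≃ₐ[ℚ] Qb,
      (fl_curve δ ε).map ((σ : Qb ≃+* Qb) : Qb →+* Qb) = fl_curve δ ε := fun σ =>
    fab_fl_curve_map _ (by simpa using hσδ (σ : Qb ≃+* Qb)) (by simpa using hσε (σ : Qb ≃+* Qb))
  have hfinV : Finite (s13_V P) :=
    Nat.finite_of_card_ne_zero (by rw [hcard P]; exact pow_ne_zero _ P.hp0)
  -- torsion points of the model give elements of `V`
  have hmk : ∀ Q : (fl_curve δ ε).toAffine.Point, P.p • Q = 0 →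
      e Q ∈ Submodule.torsionBy ℤ (P.freyCurve⁄Qb).Point P.p := by
    intro Q hQ
    rw [Submodule.mem_torsionBy_iff, natCast_zsmul, ← map_nsmul, hQ, _root_.map_zero]
  have htors : ∀ x : s13_V P, P.p • (e.symm (x : (P.freyCurve⁄Qb).Point)) = 0 := by
    intro x
    have := (Submodule.mem_torsionBy_iff _ _).mp x.2
    rw [natCast_zsmul] at this
    rw [← map_nsmul, this, _root_.map_zero]
  -- the key equivariance
  have hkey : ∀ (σ : Qb ≃ₐ[ℚ] Qb) (Q : (fl_curve δ ε).toAffine.Point),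
      e (fab_sigma ((σ : Qb ≃+* Qb) : Qb →+* Qb) (fl_curve δ ε) (hW σ) Q) = σ • e Q := by
    intro σ Q
    rw [cfh_smul_eq_sigma]
    exact hσe (σ : Qb ≃+* Qb) (hW σ) (cfh_frey_map P σ) Q
  -- the subset of the model attached to `N`
  set N' : Set (fl_curve δ ε).toAffine.Point :=
    {Q | ∃ x : s13_V P, x ∈ N ∧ (x : (P.freyCurve⁄Qb).Point) = e Q} with hN'
  refine cfh_ss_legendre (cfh_vp P A hA) hPF (cfh_vp_rat P A hA) P.p P.hp_odd (cfh_vp_p P A hA)
    δ ε hδ hε hδε hW ?_ ?_ N' ?_ ?_ ?_ ?_ ?_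
  · -- finiteness
    have hinj : Function.Injective
        (fun Q : {Q : (fl_curve δ ε).toAffine.Point | P.p • Q = 0} =>
          (⟨e Q.1, hmk Q.1 Q.2⟩ : s13_V P)) := by
      intro Q₁ Q₂ h
      have h' : e Q₁.1 = e Q₂.1 := congrArg Subtype.val h
      exact Subtype.ext (e.injective h')
    have := Finite.of_injective _ hinj
    exact Set.toFinite _
  · -- all torsion points are in `E₁`
    intro Q hQ
    have hx : (⟨e Q, hmk Q hQ⟩ : s13_V P) ∈ cfh_T₀ P A hA := by rw [hT]; trivial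
    exact (hE1e Q).mp hx
  · -- `0 ∈ N'`
    exact ⟨0, N.zero_mem, by rw [_root_.map_zero]; rfl⟩
  · -- negation
    rintro Q ⟨x, hx, hxQ⟩
    refine ⟨-x, N.neg_mem hx, ?_⟩
    rw [map_neg, ← hxQ]; rfl
  · -- Galois stability
    intro σ Q
    constructor
    · rintro ⟨x, hx, hxQ⟩
      refine ⟨σ • x, hN σ x hx, ?_⟩
      rw [hkey, ← hxQ]; rfl
    · rintro ⟨y, hy, hyQ⟩
      refine ⟨σ⁻¹ • y, hN σ⁻¹ y hy, ?_⟩
      rw [hkey] at hyQ
      change σ⁻¹ • (y : (P.freyCurve⁄Qb).Point) = e Q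
      rw [hyQ, inv_smul_smul]
  · -- a nonzero torsion point in `N'`
    obtain ⟨x, hx, hx0⟩ := Submodule.exists_mem_ne_zero_of_ne_bot hNbot
    refine ⟨e.symm (x : (P.freyCurve⁄Qb).Point), ⟨x, hx, (e.apply_symm_apply _).symm⟩, htors x, ?_⟩
    intro h0
    apply hx0
    apply Subtype.ext
    have := congrArg e h0
    rw [e.apply_symm_apply, _root_.map_zero] at this
    exact this
  · -- a torsion point outside `N'`
    obtain ⟨x, hx⟩ : ∃ x : s13_V P, x ∉ N := by
      by_contra hall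
      exact hNtop (eq_top_iff.mpr fun x _ => by_contra fun hx => hall ⟨x, hx⟩)
    refine ⟨e.symm (x : (P.freyCurve⁄Qb).Point), htors x, ?_⟩
    rintro ⟨x', hx', hxx'⟩
    rw [e.apply_symm_apply] at hxx'
    exact hx (Subtype.ext hxx' ▸ hx')

end Fermat.Agent.Lib.S13
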